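/-
S59 / Sink B / cell [MASS-ineq], abstract part (helper7).  Prefix `m59ms_`.

`F / K` a function field with separating generator `x` over an algebraically closed field `K`
(vocabulary of `JT3/Riemann`).  An element `u ∈ K(x)` WITHOUT POLES AT THE PLACES WHERE `x` IS FINITE
is a polynomial in `x`; hence its pole divisor is at most `deg · (x)_∞`, and

  `[F : K(u)] ≤ (- ord_{c₀} u) · [F : K(x)]`   for a place `c₀` with `ord_{c₀} x = -1`.

Together with `rt_sum_ord_le` (`∑_{v ∈ S} ord_v u ≤ [F : K(u)]`) this is the counting skeleton of the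
mass inequality: `m · #S ≤ (- ord_{c₀} u) · [F : K(x)]` if `ord_v u = m` on `S`.

* `m59ms_ord_aeval_pole` : `ord_v P(x) = deg P · ord_v x` at a pole `v` of `x`;
* `m59ms_exists_zero`    : a transcendental element has a zero;
* `m59ms_exists_poly`    : `u ∈ K(x)` regular where `x` is finite ⟹ `u = P(x)`;
* `m59ms_poleDiv_le`     : `(P(x))_∞ ≤ deg P · (x)_∞`;
* `m59ms_finrank_le`     : the displayed degree bound;
* `m59ms_card_le`        : `m · #S ≤ [F : K(u)]`;
* `m59ms_count_abs`      : the abstract mass inequality.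
-/
import Mathlib
import Fermat.Agent.JT3.Riemann.Principal

set_option autoImplicit false
set_option linter.unusedSectionVars false
set_option linter.style.haveILetI false

namespace Fermat.Agent.M59

open AlgebraicCurve IntermediateField Polynomial Fermat.Agent.JT3 Fermat.Agent.S24

universe u v
variable {K : Type u} {F : Type v} [Field K] [Field F] [Algebra K F]

/-- `P(x) = x ^ deg P · P^rev(x⁻¹)`. -/
theorem m59ms_aeval_eq_reverse {x : F} (hx0 : x ≠ 0) (P : K[X]) :
    aeval x P = x ^ P.natDegree * aeval x⁻¹ P.reverse := by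
  letI := invertibleOfNonzero hx0
  have h := Polynomial.eval₂_reverse_mul_pow (algebraMap K F) x P
  rw [invOf_eq_inv] at h
  rw [aeval_def, aeval_def, ← h, mul_comm]

/-- the order of a nonzero polynomial in `x` at a pole of `x`. -/
theorem m59ms_ord_aeval_pole (v : Place K F) {x : F} (hx : v.ord x < 0) {P : K[X]} (hP : P ≠ 0) :
    aeval x P ≠ 0 ∧ v.ord (aeval x P) = (P.natDegree : ℤ) * v.ord x := by
  have hx0 : x ≠ 0 := by
    rintro rfl
    simp at hx
  have hz : 0 < v.ord x⁻¹ := by
    rw [v.ord_inv]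
    omega
  have hq : P.reverse.coeff 0 ≠ 0 := by
    rw [coeff_zero_reverse]
    exact leadingCoeff_ne_zero.mpr hP
  obtain ⟨h1, h2⟩ := rt_ord_aeval_of_coeff_zero_ne v hz hq
  have hpow : x ^ P.natDegree ≠ 0 := pow_ne_zero _ hx0
  rw [m59ms_aeval_eq_reverse hx0 P]
  refine ⟨mul_ne_zero hpow h1, ?_⟩
  rw [v.ord_mul hpow h1, h2, add_zero, rt_ord_pow]

section main

variable [IsAlgClosed K] {x : F} (hx : rt_IsSepGen K x)

include hx

/-- a transcendental element has a zero. -/
theorem m59ms_exists_zero {z : F} (hz : Transcendental K z) : ∃ v : Place K F, 0 < v.ord z := by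
  by_contra hcon
  push Not at hcon
  have hz0 : z ≠ 0 := by
    rintro rfl
    exact hz (isAlgebraic_zero)
  obtain ⟨c, hc⟩ := rt_const_of_forall_mem hx z⁻¹ (fun v => by
    rw [hw_mem_iff_ord_nonneg v (inv_ne_zero hz0), v.ord_inv]
    have := hcon v
    omega)
  apply hz
  have h1 : z = algebraMap K F c⁻¹ := by
    rw [map_inv₀, ← hc, inv_inv]
  rw [h1]
  exact isAlgebraic_algebraMap _

/-- **an element of `K(x)` without poles where `x` is finite is a polynomial in `x`.** -/
theorem m59ms_exists_poly {u : F} (hu : u ∈ K⟮x⟯) (hu0 : u ≠ 0)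
    (hreg : ∀ v : Place K F, x ∈ v.toValuationSubring → 0 ≤ v.ord u) :
    ∃ P : K[X], P ≠ 0 ∧ aeval x P = u := by
  have hxt : Transcendental K x := hx.1
  have hinj : Function.Injective (aeval (R := K) x) := transcendental_iff_injective.mp hxt
  have hne : ∀ p : K[X], p ≠ 0 → aeval x p ≠ 0 := fun p hp h =>
    hp (hinj (by rw [h, map_zero]))
  obtain ⟨r, s, hrs⟩ := (IntermediateField.mem_adjoin_simple_iff K u).1 hu
  -- strong induction on the degree of the denominator
  suffices H : ∀ (n : ℕ) (r s : K[X]), s.natDegree = n → u = aeval x r / aeval x s →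
      ∃ P : K[X], P ≠ 0 ∧ aeval x P = u from H _ r s rfl hrs
  intro n
  induction n using Nat.strong_induction_on with
  | _ n ih =>
    intro r s hn hrs
    have hs0 : s ≠ 0 := by
      rintro rfl
      rw [map_zero, div_zero] at hrs
      exact hu0 hrs
    have hr0 : r ≠ 0 := by
      rintro rfl
      rw [map_zero, zero_div] at hrs
      exact hu0 hrs
    have hsx : aeval x s ≠ 0 := hne s hs0
    rcases Nat.eq_zero_or_pos n with h0 | hpos
    · -- constant denominator
      rw [h0] at hn
      obtain ⟨c, hc⟩ : ∃ c : K, s = C c := ⟨s.coeff 0, eq_C_of_natDegree_eq_zero hn⟩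
      have hc0 : c ≠ 0 := by
        rintro rfl
        exact hs0 (by rw [hc, C_0])
      refine ⟨C c⁻¹ * r, mul_ne_zero (by rwa [Ne, C_eq_zero, inv_eq_zero]) hr0, ?_⟩
      rw [hrs, hc, map_mul, aeval_C, aeval_C, map_inv₀, div_eq_inv_mul]
    · -- a root `a` of the denominator
      have hdeg : s.degree ≠ 0 := by
        rw [degree_eq_natDegree hs0, hn]
        exact_mod_cast hpos.ne'
      obtain ⟨a, ha⟩ := IsAlgClosed.exists_root s hdeg
      have hsdiv : (X - C a) * (s /ₘ (X - C a)) = s := mul_divByMonic_eq_iff_isRoot.mpr ha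
      set s₁ := s /ₘ (X - C a) with hs₁
      have hs₁0 : s₁ ≠ 0 := by
        intro h
        rw [h, mul_zero] at hsdiv
        exact hs0 hsdiv.symm
      have hdeg₁ : s₁.natDegree < n := by
        have := congrArg natDegree hsdiv
        rw [natDegree_mul (X_sub_C_ne_zero a) hs₁0, natDegree_X_sub_C, hn] at this
        omega
      set z : F := x - algebraMap K F a with hzdef
      have hzt : Transcendental K z := (hx.sub_const a).1
      have hz0 : z ≠ 0 := by
        intro h
        exact hzt (h ▸ isAlgebraic_zero)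
      have haz : aeval x (X - C a : K[X]) = z := by
        rw [map_sub, aeval_X, aeval_C]
      by_cases hra : r.IsRoot a
      · -- cancel the common factor
        have hrdiv : (X - C a) * (r /ₘ (X - C a)) = r := mul_divByMonic_eq_iff_isRoot.mpr hra
        refine ih s₁.natDegree hdeg₁ (r /ₘ (X - C a)) s₁ rfl ?_
        rw [hrs]
        conv_lhs => rw [← hrdiv, ← hsdiv]
        rw [map_mul, map_mul, haz, mul_div_mul_left _ _ hz0]
      · -- a pole of `u` at a zero of `x - a`: contradiction
        exfalso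
        obtain ⟨v, hv⟩ := m59ms_exists_zero hx hzt
        have hzmem : z ∈ v.toValuationSubring := rt_mem_of_ord_pos v hv
        have hxmem : x ∈ v.toValuationSubring := by
          have : x = z + algebraMap K F a := by rw [hzdef]; ring
          rw [this]
          exact add_mem hzmem (v.algebraMap_mem' a)
        have hnonneg := hreg v hxmem
        -- the numerator is a unit at `v`
        have hq : (r.comp (X + C a)).coeff 0 ≠ 0 := by
          rw [coeff_zero_eq_eval_zero, eval_comp, eval_add, eval_X, eval_C, zero_add]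
          exact hra
        obtain ⟨hr1, hr2⟩ := rt_ord_aeval_of_coeff_zero_ne v hv hq
        have hcomp : aeval z (r.comp (X + C a)) = aeval x r := by
          rw [aeval_comp, map_add, aeval_X, aeval_C, hzdef, sub_add_cancel]
        rw [hcomp] at hr1 hr2
        -- the denominator vanishes at `v`
        have hs₁x : aeval x s₁ ≠ 0 := hne s₁ hs₁0
        have hs₁ord : 0 ≤ v.ord (aeval x s₁) :=
          (hw_mem_iff_ord_nonneg v hs₁x).mp (rt_aeval_mem v hxmem s₁)
        have hsord : 0 < v.ord (aeval x s) := by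
          rw [← hsdiv, map_mul, haz, v.ord_mul hz0 hs₁x]
          omega
        have hmul : u * aeval x s = aeval x r := by
          rw [hrs, div_mul_cancel₀ _ hsx]
        have hord := v.ord_mul hu0 hsx
        rw [hmul, hr2] at hord
        omega

/-- the pole divisor of a polynomial in `x`. -/
theorem m59ms_poleDiv_le {P : K[X]} (hP : P ≠ 0) :
    rt_poleDiv hx (aeval x P) ≤ P.natDegree • rt_poleDiv hx x := by
  have hx0 : x ≠ 0 := by
    intro h
    exact hx.1 (h ▸ isAlgebraic_zero)
  rw [Finsupp.le_def]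
  intro v
  rw [Finsupp.smul_apply, rt_poleDiv_apply, rt_poleDiv_apply, nsmul_eq_mul]
  by_cases hpole : v.ord x < 0
  · obtain ⟨-, h2⟩ := m59ms_ord_aeval_pole v hpole hP
    rw [h2, max_eq_left (by omega : (0 : ℤ) ≤ -v.ord x),
      max_eq_left (by nlinarith [Int.natCast_nonneg P.natDegree] : (0 : ℤ) ≤
        -((P.natDegree : ℤ) * v.ord x))]
    linarith
  · have hxmem : x ∈ v.toValuationSubring := (hw_mem_iff_ord_nonneg v hx0).mpr (by omega)
    have hmem := rt_aeval_mem v hxmem P
    have h0 : 0 ≤ v.ord (aeval x P) := by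
      rcases eq_or_ne (aeval x P) 0 with h | h
      · rw [h, v.ord_zero]
      · exact (hw_mem_iff_ord_nonneg v h).mp hmem
    rw [max_eq_right (by omega : -v.ord (aeval x P) ≤ 0)]
    exact mul_nonneg (Int.natCast_nonneg _) (le_max_right _ _)

/-- **the degree bound**: `[F : K(u)] ≤ (- ord_{c₀} u) · [F : K(x)]` for `u ∈ K(x)` regular where `x`
is finite and a place `c₀` with `ord_{c₀} x = -1`. -/
theorem m59ms_finrank_le {u : F} (hu : u ∈ K⟮x⟯) (hut : Transcendental K u)
    (hreg : ∀ v : Place K F, x ∈ v.toValuationSubring → 0 ≤ v.ord u)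
    (c0 : Place K F) (hc0 : c0.ord x = -1) :
    (Module.finrank K⟮u⟯ F : ℤ) ≤ (-c0.ord u) * (Module.finrank K⟮x⟯ F : ℤ) := by
  have hu0 : u ≠ 0 := by
    intro h
    exact hut (h ▸ isAlgebraic_zero)
  obtain ⟨P, hP, hPu⟩ := m59ms_exists_poly hx hu hu0 hreg
  obtain ⟨-, hord⟩ := m59ms_ord_aeval_pole c0 (by rw [hc0]; norm_num : c0.ord x < 0) hP
  rw [hPu, hc0] at hord
  have hle := rt_degree_mono hx (m59ms_poleDiv_le hx hP)
  rw [hPu, map_nsmul, rt_degree_poleDiv hx hut, rt_degree_poleDiv hx hx.1, nsmul_eq_mul] at hle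
  rw [hord]
  linarith

/-- **counting zeros**: `m · #S ≤ [F : K(u)]` if `ord_v u = m > 0` on `S`. -/
theorem m59ms_card_le {u : F} (hut : Transcendental K u) (S : Finset (Place K F)) {m : ℤ}
    (hm : 0 < m) (hS : ∀ v ∈ S, v.ord u = m) :
    m * (S.card : ℤ) ≤ (Module.finrank K⟮u⟯ F : ℤ) := by
  have h := rt_sum_ord_le hx hut S (fun v hv => by rw [hS v hv]; exact hm)
  rw [Finset.sum_congr rfl hS, Finset.sum_const, nsmul_eq_mul] at h
  linarith

/-- **the abstract mass inequality.** -/
theorem m59ms_count_abs {u : F} (hu : u ∈ K⟮x⟯)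
    (hreg : ∀ v : Place K F, x ∈ v.toValuationSubring → 0 ≤ v.ord u)
    (c0 : Place K F) (hc0 : c0.ord x = -1)
    (S : Finset (Place K F)) {m : ℤ} (hm : 0 < m) (hS : ∀ v ∈ S, v.ord u = m) :
    m * (S.card : ℤ) ≤ (-c0.ord u) * (Module.finrank K⟮x⟯ F : ℤ) := by
  rcases S.eq_empty_or_nonempty with rfl | ⟨v₀, hv₀⟩
  · -- nothing to count; the right-hand side is nonnegative
    simp only [Finset.card_empty, Nat.cast_zero, mul_zero]
    rcases hw_const_or_transcendental (K := K) u with ⟨c, rfl⟩ | hut
    · rw [hw_ord_algebraMap, neg_zero, zero_mul]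
    · have h1 := m59ms_finrank_le hx hu hut hreg c0 hc0
      have h2 : (0 : ℤ) ≤ (Module.finrank K⟮u⟯ F : ℤ) := Int.natCast_nonneg _
      linarith
  · have hut : Transcendental K u :=
      rt_transcendental_of_ord_ne_zero (v := v₀) (by rw [hS v₀ hv₀]; exact hm.ne')
    exact (m59ms_card_le hx hut S hm hS).trans (m59ms_finrank_le hx hu hut hreg c0 hc0)

end main

end Fermat.Agent.M59
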