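/-
S59 / Sink B / cell [MASS-ineq], the COUNT (helper7).  Prefix `m59ms_`.

`A` a valuation subring of `ℚ̄` over an odd prime `q`, `kA` its residue field, `q ∤ M`,
`FF_M = s44e_FF A M` the special fibre function field of level `M`, `Sg = s44e_Sg A M q` the
supersingular places, `ū = s44e_ubar A M q` the reduction of the modular unit `Δ(τ)/Δ(qτ)`.

* `m59ms_finrank_j`   : `[FF_M : kA(j̄)] = ψ(M)`                       (from `s44rg_relfinrank_j`);
* `m59ms_ubar_mem`    : `ū ∈ kA(j̄)`                                   (`ū` comes from level `1`);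
* `m59ms_order_U`     : `1 - q ≤ order (Δ̄(q)/Δ̄(q^q))`;
* `m59ms_finite_Sg`   : `Sg` is finite                                 (zeros of `ū`, (U-DIV));
* `m59ms_count`       : RIGIDITY `hT : ord_Q ū = 12` on `Sg`  ⟹  `12 · #Sg ≤ (q - 1) · ψ(M)`.
-/
import Mathlib
import Fermat.Agent.M59.SinkB.Mass.Poly
import Fermat.Agent.S44.Res.UDivMain
import Fermat.Agent.S44.Res.Ubar
import Fermat.Agent.S44.Res.GenP
import Fermat.Agent.S44.HeckeRes.DegLow
import Fermat.Agent.SS.Model.CuspsInst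
import Fermat.Agent.MZ.B.QInt

set_option autoImplicit false
set_option linter.unusedSectionVars false
set_option linter.style.haveILetI false
set_option linter.unusedVariables false

noncomputable section

namespace Fermat.Agent.M59

open Polynomial ModularCurve AlgebraicCurve IntermediateField IsLocalRing
open Fermat.Agent.JT3 Fermat.Agent.SS Fermat.Agent.S24 Fermat.Agent.S44 Fermat.Agent.MZ

local notation "Qb" => AlgebraicClosure ℚ

/-! ### the order of `Δ(q)/Δ(q^p)` over any field -/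

section OrderU

variable (k : Type*) [Field k] (p : ℕ) [NeZero p]

theorem m59ms_coeff_U_int {i : ℤ} (hi : i < 1 - (p : ℤ)) : (mzb_qi_U ℤ p).coeff i = 0 := by
  have h1 : coeffMap (Int.castRingHom ℚ) (mzb_qi_U ℤ p) = modularUnitSeries p := by
    rw [mzb_qi_coeffMap_U, mzb_qi_U_rat]
  have h2 := congrArg (fun x : LaurentSeries ℚ => x.coeff i) h1
  simp only [coeffMap_coeff, coeff_modularUnitSeries_of_lt p hi] at h2
  have h3 : (((mzb_qi_U ℤ p).coeff i : ℤ) : ℚ) = 0 := h2
  exact_mod_cast h3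

theorem m59ms_coeff_U {i : ℤ} (hi : i < 1 - (p : ℤ)) : (mzb_qi_U k p).coeff i = 0 := by
  rw [← mzb_qi_coeffMap_U (Int.castRingHom k) p, coeffMap_coeff, m59ms_coeff_U_int p hi, map_zero]

/-- `1 - p ≤ order (Δ(q)/Δ(q^p))`. -/
theorem m59ms_order_U : 1 - (p : ℤ) ≤ (mzb_qi_U k p).order := by
  have hne : mzb_qi_U k p ≠ 0 := by
    intro h
    have := mzb_qi_U_mul_inv k p
    rw [h, zero_mul] at this
    exact zero_ne_one this
  by_contra hlt
  rw [not_le] at hlt
  exact hne (HahnSeries.coeff_order_eq_zero.mp (m59ms_coeff_U k p hlt))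

end OrderU

section Count

set_option synthInstance.maxHeartbeats 400000

variable (A : ValuationSubring Qb) {q : ℕ} [hq : Fact q.Prime] (hA : A.LiesOverPrime q)
  (M : ℕ) [NeZero M] [NeZero q] [NeZero (M * q)] (hqM : ¬ q ∣ M) (hq2 : ¬ 2 ∣ q)

include hA hqM in
/-- **(DEG)**: `[FF_M : kA(j̄)] = ψ(M)`. -/
theorem m59ms_finrank_j :
    Module.finrank (s44e_kA A)⟮jcr_j (k := s44e_kA A) M⟯ (s44e_FF A M) = dedekindPsi M := by
  rw [ssm_cf_finrank_adjoin (s44e_FF A M) (jcr_j (k := s44e_kA A) M)]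
  exact (s44rg_relfinrank_j A hA M hqM).trans (s44hx_natDegree_Phi M q hqM)

include hA hqM in
/-- **(U-CUSP), first half**: `ū ∈ kA(j̄)`. -/
theorem m59ms_ubar_mem :
    s44e_ubar A M q ∈ (s44e_kA A)⟮jcr_j (k := s44e_kA A) M⟯ := by
  haveI : NeZero (1 * q) := ⟨by rw [one_mul]; exact NeZero.ne q⟩
  have hq1 : ¬ q ∣ 1 := fun h => hq.out.one_lt.ne' (Nat.dvd_one.mp h)
  -- the same series at level `1`
  have h1 : ((s44e_ubar A 1 q : s44e_FF A 1) : LaurentSeries (s44e_kA A)) =
      mzb_qi_U (ResidueField ↥A) q := s44e_ubar_coe A hA 1 hq1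
  have hM : ((s44e_ubar A M q : s44e_FF A M) : LaurentSeries (s44e_kA A)) =
      mzb_qi_U (ResidueField ↥A) q := s44e_ubar_coe A hA M hqM
  -- `FF_1 = kA(j̄)`
  have hF1 : modularFunctionFieldFullC (ResidueField ↥A) 1 =
      (ResidueField ↥A)⟮jqModC (ResidueField ↥A)⟯ := by
    rw [s44rg_full_eq A hA 1 hq1, qExpand_one_apply]
    congr 1
    simp
  have hmem : ((s44e_ubar A M q : s44e_FF A M) : LaurentSeries (s44e_kA A)) ∈
      (ResidueField ↥A)⟮jqModC (ResidueField ↥A)⟯ := by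
    rw [hM, ← h1, ← hF1]
    exact (s44e_ubar A 1 q).2
  rw [← ssm_cf_comap_adjoin (s44e_FF A M) (jcr_j (k := s44e_kA A) M)]
  exact hmem

include hA hqM in
/-- the separating generator `j̄` of `FF_M / kA`. -/
theorem m59ms_sepGen :
    haveI := jcr_isAlgClosed A
    rt_IsSepGen (s44e_kA A) (jcr_j (k := s44e_kA A) M) := by
  haveI := jcr_charP A hA
  haveI := jcr_isAlgClosed A
  exact jcr_isSepGen M hqM (jcr_rho A hA)

include hA hqM hq2 in
/-- **(U-DIV) + rigidity**: `ū` has no poles where `j̄` is finite. -/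
theorem m59ms_ubar_reg
    (hT : ∀ Q : Place (s44e_kA A) (s44e_FF A M), s44e_IsSS A M q hq.out hqM Q →
      Q.ord (s44e_ubar A M q) = 12)
    (v : Place (s44e_kA A) (s44e_FF A M))
    (hv : jcr_j (k := s44e_kA A) M ∈ v.toValuationSubring) :
    0 ≤ v.ord (s44e_ubar A M q) := by
  have hU := s44udm_udiv A hA M hqM hq2 v hv
  by_cases hss : s44e_IsSS A M q hq.out hqM v
  · rw [hT v hss]
    norm_num
  · rw [hU.2 hss]

include hA hqM hq2 in
/-- **(MS1)**: there are finitely many supersingular places. -/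
theorem m59ms_finite_Sg : Finite (s44e_Sg A M q hq.out hqM) := by
  haveI := jcr_charP A hA
  haveI := jcr_isAlgClosed A
  have hsep := m59ms_sepGen A hA M hqM
  have hfin := rt_finite_support hsep (s44e_ubar A M q)
  have hsub : {Q : Place (s44e_kA A) (s44e_FF A M) | s44e_IsSS A M q hq.out hqM Q} ⊆
      {v : Place (s44e_kA A) (s44e_FF A M) | v.ord (s44e_ubar A M q) ≠ 0} := by
    intro Q hQ
    obtain ⟨T, hT⟩ := (s44udm_udiv A hA M hqM hq2 Q hQ.1).1 hQ
    intro h0
    rw [h0, mul_zero] at hT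
    norm_num at hT
  exact (hfin.subset hsub).to_subtype

include hA hqM hq2 in
/-- **(MS2), the COUNT**: at a rigid level (`ord_Q ū = 12` at every supersingular place),
`12 · #Sg ≤ (q - 1) · ψ(M)`. -/
theorem m59ms_count
    (hT : ∀ Q : Place (s44e_kA A) (s44e_FF A M), s44e_IsSS A M q hq.out hqM Q →
      Q.ord (s44e_ubar A M q) = 12) :
    12 * Nat.card (s44e_Sg A M q hq.out hqM) ≤ (q - 1) * dedekindPsi M := by
  classical
  haveI := jcr_charP A hA
  haveI := jcr_isAlgClosed A
  have hsep := m59ms_sepGen A hA M hqM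
  -- the place at infinity
  obtain ⟨c0, hc0⟩ := ssm_cf_exists_xplace (s44e_FF A M)
    (jqModC_mem_full (s44e_kA A) M) (jcr_order_jq (k := s44e_kA A))
  have hc0j : c0.ord (jcr_j (k := s44e_kA A) M) = -1 := by
    rw [hc0]
    exact jcr_order_jq (k := s44e_kA A)
  have hc0u : 1 - (q : ℤ) ≤ c0.ord (s44e_ubar A M q) := by
    rw [hc0, s44e_ubar_coe A hA M hqM]
    exact m59ms_order_U (ResidueField ↥A) q
  -- the finite set of supersingular places
  haveI := m59ms_finite_Sg A hA M hqM hq2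
  haveI : Fintype (s44e_Sg A M q hq.out hqM) := Fintype.ofFinite _
  set S : Finset (Place (s44e_kA A) (s44e_FF A M)) :=
    Finset.univ.map ⟨fun i : s44e_Sg A M q hq.out hqM => i.1, Subtype.val_injective⟩ with hS
  have hScard : S.card = Nat.card (s44e_Sg A M q hq.out hqM) := by
    rw [hS, Finset.card_map, Finset.card_univ, Nat.card_eq_fintype_card]
  have hSord : ∀ v ∈ S, v.ord (s44e_ubar A M q) = 12 := by
    intro v hv
    rw [hS, Finset.mem_map] at hv
    obtain ⟨i, -, rfl⟩ := hv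
    exact hT i.1 i.2
  have hmain := m59ms_count_abs hsep (m59ms_ubar_mem A hA M hqM)
    (m59ms_ubar_reg A hA M hqM hq2 hT) c0 hc0j S (by norm_num : (0 : ℤ) < 12) hSord
  rw [hScard, m59ms_finrank_j A hA M hqM] at hmain
  have hq1 : 1 ≤ q := hq.out.one_lt.le
  have hψ : (0 : ℤ) ≤ (dedekindPsi M : ℤ) := Int.natCast_nonneg _
  have hfin : (12 : ℤ) * (Nat.card (s44e_Sg A M q hq.out hqM) : ℤ) ≤
      ((q : ℤ) - 1) * (dedekindPsi M : ℤ) := by
    refine hmain.trans (mul_le_mul_of_nonneg_right ?_ hψ)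
    omega
  have : ((12 * Nat.card (s44e_Sg A M q hq.out hqM) : ℕ) : ℤ) ≤
      (((q - 1) * dedekindPsi M : ℕ) : ℤ) := by
    push_cast [Nat.cast_sub hq1]
    exact hfin
  exact_mod_cast this

end Count

end Fermat.Agent.M59
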