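/-
S59 / Sink B / cell [MASS-ineq], part (ARITH) (helper7).  Prefix `m59ms_`.

Pure arithmetic on the Prelude's `ModularCurve.genusFormula`: for a prime `q ∤ M` and a RIGID level
`M` (`nuTwo M = 0`, `nuThree M = 0`; e.g. `4 ∣ M`)

  `genusFormula (M * q) - 2 * genusFormula M = (q - 1) * ψ(M) / 12 - 1`.

* `m59ms_nuTwo_of_four_dvd`   : `4 ∣ M → nuTwo M = 0`;
* `m59ms_nuThree_of_two_dvd`  : `2 ∣ M → nuThree M = 0`;
* `m59ms_nuTwo_mul`, `m59ms_nuThree_mul` : vanishing passes from `M` to `M * q`;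
* `m59ms_cuspCount_mul_prime` : `cuspCount (M * q) = 2 * cuspCount M` (`q` prime, `q ∤ M`);
* `m59ms_arith`               : the displayed identity.
-/
import Mathlib
import Fermat.Prelude.Def_ModularCurve_GenusNumerics
import Fermat.Agent.S24.Comb.PsiArith

set_option autoImplicit false

namespace Fermat.Agent.M59

open ModularCurve

/-- a solution of a polynomial equation modulo `N` gives one modulo every divisor. -/
theorem m59ms_card_eq_zero_of_dvd {M N : ℕ} [NeZero M] (h : M ∣ N)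
    (P : ∀ n : ℕ, ZMod n → Prop)
    (hP : ∀ x : ZMod N, P N x → P M (ZMod.castHom h (ZMod M) x))
    (h0 : Nat.card {x : ZMod M // P M x} = 0) : Nat.card {x : ZMod N // P N x} = 0 := by
  have hM : IsEmpty {x : ZMod M // P M x} := by
    rcases Nat.card_eq_zero.mp h0 with h1 | h1
    · exact h1
    · exact absurd (inferInstance : Finite {x : ZMod M // P M x}) (not_finite_iff_infinite.mpr h1)
  have hN : IsEmpty {x : ZMod N // P N x} :=
    ⟨fun x => hM.false ⟨ZMod.castHom h (ZMod M) x.1, hP x.1 x.2⟩⟩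
  exact Nat.card_eq_zero.mpr (Or.inl hN)

theorem m59ms_nuTwo_of_dvd {M N : ℕ} [NeZero M] (h : M ∣ N) (h0 : nuTwo M = 0) : nuTwo N = 0 := by
  unfold nuTwo at h0 ⊢
  refine m59ms_card_eq_zero_of_dvd h (fun n x => x ^ 2 + 1 = 0) (fun x hx => ?_) h0
  have := congrArg (ZMod.castHom h (ZMod M)) hx
  rw [map_add, map_pow, map_one, map_zero] at this
  exact this

theorem m59ms_nuThree_of_dvd {M N : ℕ} [NeZero M] (h : M ∣ N) (h0 : nuThree M = 0) :
    nuThree N = 0 := by
  unfold nuThree at h0 ⊢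
  refine m59ms_card_eq_zero_of_dvd h (fun n x => x ^ 2 + x + 1 = 0) (fun x hx => ?_) h0
  have := congrArg (ZMod.castHom h (ZMod M)) hx
  rw [map_add, map_add, map_pow, map_one, map_zero] at this
  exact this

theorem m59ms_nuTwo_four : nuTwo 4 = 0 := by
  unfold nuTwo
  refine Nat.card_eq_zero.mpr (Or.inl ⟨fun x => ?_⟩)
  have : ∀ y : ZMod 4, y ^ 2 + 1 ≠ 0 := by decide
  exact this x.1 x.2

theorem m59ms_nuThree_two : nuThree 2 = 0 := by
  unfold nuThree
  refine Nat.card_eq_zero.mpr (Or.inl ⟨fun x => ?_⟩)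
  have : ∀ y : ZMod 2, y ^ 2 + y + 1 ≠ 0 := by decide
  exact this x.1 x.2

/-- `4 ∣ M → ν₂(M) = 0`. -/
theorem m59ms_nuTwo_of_four_dvd {M : ℕ} (h : 4 ∣ M) : nuTwo M = 0 :=
  m59ms_nuTwo_of_dvd h m59ms_nuTwo_four

/-- `2 ∣ M → ν₃(M) = 0`. -/
theorem m59ms_nuThree_of_two_dvd {M : ℕ} (h : 2 ∣ M) : nuThree M = 0 :=
  m59ms_nuThree_of_dvd h m59ms_nuThree_two

theorem m59ms_nuTwo_mul {M : ℕ} [NeZero M] (q : ℕ) (h0 : nuTwo M = 0) : nuTwo (M * q) = 0 :=
  m59ms_nuTwo_of_dvd (dvd_mul_right M q) h0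

theorem m59ms_nuThree_mul {M : ℕ} [NeZero M] (q : ℕ) (h0 : nuThree M = 0) :
    nuThree (M * q) = 0 :=
  m59ms_nuThree_of_dvd (dvd_mul_right M q) h0

/-- `c(M q) = 2 c(M)` for a prime `q ∤ M`. -/
theorem m59ms_cuspCount_mul_prime {M q : ℕ} (hM : M ≠ 0) (hq : q.Prime) (hqM : ¬ q ∣ M) :
    cuspCount (M * q) = 2 * cuspCount M := by
  unfold cuspCount
  have hcop : Nat.Coprime M q := (Nat.Coprime.symm ((Nat.Prime.coprime_iff_not_dvd hq).mpr hqM))
  have hdisj : Disjoint M.divisors (M.divisors.image (· * q)) := by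
    rw [Finset.disjoint_left]
    intro d hd hd'
    obtain ⟨e, he, rfl⟩ := Finset.mem_image.mp hd'
    exact hqM ((dvd_mul_left q e).trans (Nat.dvd_of_mem_divisors hd))
  have hdiv : (M * q).divisors = M.divisors ∪ M.divisors.image (· * q) := by
    ext d
    simp only [Nat.mem_divisors, Finset.mem_union, Finset.mem_image]
    constructor
    · rintro ⟨hd, -⟩
      by_cases hqd : q ∣ d
      · obtain ⟨e, rfl⟩ := hqd
        right
        refine ⟨e, ⟨?_, hM⟩, by ring⟩
        have : q * e ∣ q * M := by rwa [mul_comm M q] at hd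
        exact (Nat.mul_dvd_mul_iff_left hq.pos).mp this
      · left
        have hc : Nat.Coprime d q := Nat.Coprime.symm ((Nat.Prime.coprime_iff_not_dvd hq).mpr hqd)
        exact ⟨hc.dvd_of_dvd_mul_right hd, hM⟩
    · rintro (⟨hd, -⟩ | ⟨e, ⟨he, -⟩, rfl⟩)
      · exact ⟨hd.mul_right q, Nat.mul_ne_zero hM hq.ne_zero⟩
      · exact ⟨Nat.mul_dvd_mul_right he q, Nat.mul_ne_zero hM hq.ne_zero⟩
  rw [hdiv, Finset.sum_union hdisj, Finset.sum_image, two_mul]
  · congr 1
    · refine Finset.sum_congr rfl fun d hd => ?_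
      have hd' := Nat.dvd_of_mem_divisors hd
      have hd0 : 0 < d := Nat.pos_of_mem_divisors hd
      have hqd : ¬ q ∣ d := fun h => hqM (h.trans hd')
      have hc : Nat.Coprime d q := Nat.Coprime.symm ((Nat.Prime.coprime_iff_not_dvd hq).mpr hqd)
      have e1 : M * q / d = M / d * q := by
        obtain ⟨e, rfl⟩ := hd'
        rw [Nat.mul_div_cancel_left _ hd0, mul_assoc, Nat.mul_div_cancel_left _ hd0]
      rw [e1, Nat.Coprime.gcd_mul_right_cancel_right _ hc.symm]
    · refine Finset.sum_congr rfl fun d hd => ?_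
      have hd' := Nat.dvd_of_mem_divisors hd
      have hd0 : 0 < d := Nat.pos_of_mem_divisors hd
      have e1 : M * q / (d * q) = M / d := Nat.mul_div_mul_right M d hq.pos
      have hqMd : ¬ q ∣ M / d := fun h => hqM (h.trans (Nat.div_dvd_of_dvd hd'))
      have hc : Nat.Coprime (M / d) q :=
        Nat.Coprime.symm ((Nat.Prime.coprime_iff_not_dvd hq).mpr hqMd)
      rw [e1, Nat.Coprime.gcd_mul_right_cancel _ hc.symm]
  · intro a _ b _ hab
    exact Nat.eq_of_mul_eq_mul_right hq.pos hab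

/-- **(ARITH)**: at a rigid level `M` and a prime `q ∤ M`,
`g(M q) - 2 g(M) = (q - 1) ψ(M) / 12 - 1` (on the Prelude's `genusFormula`). -/
theorem m59ms_arith {M q : ℕ} [NeZero M] (hq : q.Prime) (hqM : ¬ q ∣ M)
    (h2 : nuTwo M = 0) (h3 : nuThree M = 0) :
    genusFormula (M * q) - 2 * genusFormula M =
      ((q : ℚ) - 1) * (dedekindPsi M : ℚ) / 12 - 1 := by
  have hψ : dedekindPsi (M * q) = (q + 1) * dedekindPsi M := by
    rw [mul_comm M q]
    exact Fermat.Agent.S24.Comb.dedekindPsi_prime_mul_of_not_dvd hq hqM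
  unfold genusFormula
  rw [m59ms_nuTwo_mul q h2, m59ms_nuThree_mul q h3, h2, h3,
    m59ms_cuspCount_mul_prime (NeZero.ne M) hq hqM, hψ]
  push_cast
  ring

end Fermat.Agent.M59
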