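/-
S59 / Sink B / cell [MASS-ineq], HEADLINE (helper7).  Prefix `m59ms_`.

`A` a valuation subring of `ℚ̄` over an odd prime `q ∤ M`, `Sg = s44e_Sg A M q` the supersingular
places of the special fibre function field `FF_M / kA`, `ū = s44e_ubar A M q`.

  **`m59ms_mass_ineq`** : RIGIDITY (`hT : ord_Q ū = 12` on `Sg`) and `ν₂(M) = ν₃(M) = 0`  ⟹
      `#Sg - 1 ≤ genusFormula (M q) - 2 · genusFormula M`

(the inequality half (F3) of the Eichler–Deuring mass formula `g(Mq) = 2 g(M) + #SS - 1`, in the form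
used by Lemma 1 of the toric count: with S24, `genusFormula N` IS the genus of `X₀(N)`), and its
corollary `m59ms_mass_ineq_four` for `4 ∣ M`.  The rigidity hypothesis `hT` is the cell [RIGID-T].
-/
import Mathlib
import Fermat.Agent.M59.SinkB.Mass.Arith
import Fermat.Agent.M59.SinkB.Mass.Count

set_option autoImplicit false
set_option linter.unusedSectionVars false
set_option linter.style.haveILetI false
set_option linter.unusedVariables false

noncomputable section

namespace Fermat.Agent.M59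

open ModularCurve AlgebraicCurve IsLocalRing
open Fermat.Agent.JT3 Fermat.Agent.S44

local notation "Qb" => AlgebraicClosure ℚ

section Mass

variable (A : ValuationSubring Qb) {q : ℕ} [hq : Fact q.Prime] (hA : A.LiesOverPrime q)
  (M : ℕ) [NeZero M] [NeZero q] [NeZero (M * q)] (hqM : ¬ q ∣ M) (hq2 : ¬ 2 ∣ q)

include hA hqM hq2 in
/-- **[MASS-ineq]**: at a rigid level `M` and an odd prime `q ∤ M`,
`#SS - 1 ≤ g(M q) - 2 g(M)` (on the Prelude's `genusFormula`). -/
theorem m59ms_mass_ineq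
    (hT : ∀ Q : Place (s44e_kA A) (s44e_FF A M), s44e_IsSS A M q hq.out hqM Q →
      Q.ord (s44e_ubar A M q) = 12)
    (h2 : nuTwo M = 0) (h3 : nuThree M = 0) :
    (Nat.card (s44e_Sg A M q hq.out hqM) : ℚ) - 1 ≤
      genusFormula (M * q) - 2 * genusFormula M := by
  rw [m59ms_arith hq.out hqM h2 h3]
  have hcount := m59ms_count A hA M hqM hq2 hT
  have hq1 : 1 ≤ q := hq.out.one_lt.le
  have hc : ((12 * Nat.card (s44e_Sg A M q hq.out hqM) : ℕ) : ℚ) ≤
      (((q - 1) * dedekindPsi M : ℕ) : ℚ) := by exact_mod_cast hcount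
  push_cast [Nat.cast_sub hq1] at hc
  linarith

include hA hqM hq2 in
/-- **[MASS-ineq] for `4 ∣ M`.** -/
theorem m59ms_mass_ineq_four (h4 : 4 ∣ M)
    (hT : ∀ Q : Place (s44e_kA A) (s44e_FF A M), s44e_IsSS A M q hq.out hqM Q →
      Q.ord (s44e_ubar A M q) = 12) :
    (Nat.card (s44e_Sg A M q hq.out hqM) : ℚ) - 1 ≤
      genusFormula (M * q) - 2 * genusFormula M :=
  m59ms_mass_ineq A hA M hqM hq2 hT (m59ms_nuTwo_of_four_dvd h4)
    (m59ms_nuThree_of_two_dvd ((by norm_num : 2 ∣ 4).trans h4))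

end Mass

end Fermat.Agent.M59
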